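import Fermat.Agent.S18.Alg.Spec
import Fermat.Agent.S18.H393.LocalFree
import Fermat.Agent.S18.H278.NCVal

/-!
# S18 / ALG-FRONT, piece hNC (helper278), part 2: unramified ⟹ `B/πB` reduced

Language of `Alg/Spec.lean` (sub-objects of one field `Ω`).  `NCData` = the fields of
`Alg.GoodModel` that are used.  Main result (`NCData.isIntegral_mul_inv`):

  `π ∈ R[X]` prime, not associated to `w` nor to `X - c` (`c ∈ S`); `b` integral over `R[x]` and
  `b ^ k / π(x)` integral over `R[x]`  ⟹  `b / π(x)` integral over `R[x]`,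

i.e. `π(x)` generates a radical ideal of the chart (integral closure of `R[x]`).
Corollaries `GoodModel.radical_fin`, `GoodModel.radical_inf` for the two charts of a good model.

Proof: (1) `β = b/π(x)` lies in every valuation ring `V ⊇ Ec[x]` of `Ω` (`V ⊇ Lc`; if `π(x)` is a
nonunit of `V` it is a uniformiser by `mul_inv_mem_of_unramified`), hence `β` is integral over
`Ec[x] = R[x][1/w]`; (2) clear denominators: `w ^ n β` is integral over `R[x]`;
(3) `π β` and `w ^ n β` integral ⟹ `β` integral (`H393.isIntegral_of_isIntegral_mul'`).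
-/

set_option autoImplicit false
set_option linter.unusedSectionVars false
set_option linter.style.haveILetI false

namespace Fermat.Agent.S18.H278

open Polynomial Fermat.Agent.S18.Alg

variable {Ω : Type*} [Field Ω]

/-- The hypotheses of the hNC piece (a subset of the fields of `Alg.GoodModel`). -/
structure NCData (Lc Ec : Subfield Ω) (R : Subring Ω) (w x : Ω) (S : Finset Ω) : Prop where
  charZero : CharZero Ω
  R_le : (R : Set Ω) ⊆ Ec
  R_total : ∀ e ∈ Ec, e ∈ R ∨ e⁻¹ ∈ R
  w_mem : w ∈ R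
  w_ne_zero : w ≠ 0
  w_inv_not_mem : w⁻¹ ∉ R
  w_gen : ∀ r ∈ R, r⁻¹ ∉ R → r * w⁻¹ ∈ R
  w_discrete : ∀ r ∈ R, r ≠ 0 → ∃ n : ℕ, r * (w⁻¹) ^ n ∈ R ∧ (r * (w⁻¹) ^ n)⁻¹ ∈ R
  E_le_L : Ec ≤ Lc
  L_algebraic : ∀ a ∈ Lc, IsAlgebraic Ec a
  L_algClosed : IsAlgClosed Lc
  x_transcendental : Transcendental Lc x
  S_mem : ∀ s ∈ S, s ∈ R
  unramified : Unramified Lc x S

namespace NCData

variable {Lc Ec : Subfield Ω} {R : Subring Ω} {w x : Ω} {S : Finset Ω}

section DVR

variable (h : NCData Lc Ec R w x S)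
include h

/-- An element of `R` with inverse in `R` is a unit of `R`. -/
theorem isUnit_of_inv_mem {r : R} (hr : (r : Ω)⁻¹ ∈ R) (hr0 : r ≠ 0) : IsUnit r := by
  refine isUnit_iff_exists_inv.mpr ⟨⟨(r : Ω)⁻¹, hr⟩, ?_⟩
  apply Subtype.ext
  have : (r : Ω) ≠ 0 := fun h0 => hr0 (Subtype.ext h0)
  simp [this]

theorem inv_mem_of_isUnit {r : R} (hr : IsUnit r) : (r : Ω)⁻¹ ∈ R := by
  obtain ⟨s, hs⟩ := isUnit_iff_exists_inv.mp hr
  have h1 : (r : Ω) * (s : Ω) = 1 := congrArg Subtype.val hs
  have h2 : (r : Ω)⁻¹ = s := by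
    have hr0 : (r : Ω) ≠ 0 := left_ne_zero_of_mul_eq_one h1
    exact inv_eq_of_mul_eq_one_right h1
  rw [h2]
  exact s.2

/-- The uniformiser as an element of `R`. -/
def w₀ : R := ⟨w, h.w_mem⟩

theorem w₀_ne_zero : h.w₀ ≠ 0 := fun h0 => h.w_ne_zero (congrArg Subtype.val h0)

theorem not_isUnit_w₀ : ¬ IsUnit h.w₀ := fun hu => h.w_inv_not_mem (h.inv_mem_of_isUnit hu)

/-- Every nonunit of `R` is divisible by `w`. -/
theorem w₀_dvd_of_not_isUnit {r : R} (hr : ¬ IsUnit r) : h.w₀ ∣ r := by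
  rcases eq_or_ne r 0 with rfl | hr0
  · exact dvd_zero _
  have h1 : (r : Ω)⁻¹ ∉ R := fun hmem => hr (h.isUnit_of_inv_mem hmem hr0)
  refine ⟨⟨(r : Ω) * w⁻¹, h.w_gen r r.2 h1⟩, ?_⟩
  apply Subtype.ext
  show (r : Ω) = w * ((r : Ω) * w⁻¹)
  have := h.w_ne_zero
  field_simp

theorem irreducible_w₀ : Irreducible h.w₀ := by
  refine ⟨h.not_isUnit_w₀, fun a b hab => ?_⟩
  by_contra hcon
  push Not at hcon
  obtain ⟨a', ha'⟩ := h.w₀_dvd_of_not_isUnit hcon.1
  obtain ⟨b', hb'⟩ := h.w₀_dvd_of_not_isUnit hcon.2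
  have h1 : h.w₀ * 1 = h.w₀ * (h.w₀ * (a' * b')) := by
    rw [mul_one]
    conv_lhs => rw [hab, ha', hb']
    ring
  have h2 : (1 : R) = h.w₀ * (a' * b') := mul_left_cancel₀ h.w₀_ne_zero h1
  exact h.not_isUnit_w₀ (IsUnit.of_mul_eq_one _ h2.symm)

/-- `R` is a discrete valuation ring. -/
theorem isDiscreteValuationRing : IsDiscreteValuationRing R := by
  refine IsDiscreteValuationRing.ofHasUnitMulPowIrreducibleFactorization
    ⟨h.w₀, h.irreducible_w₀, fun {r} hr0 => ?_⟩
  have hr0' : (r : Ω) ≠ 0 := fun h0 => hr0 (Subtype.ext h0)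
  obtain ⟨n, hn1, hn2⟩ := h.w_discrete r r.2 hr0'
  refine ⟨n, ?_⟩
  have hu0 : (⟨(r : Ω) * (w⁻¹) ^ n, hn1⟩ : R) ≠ 0 := by
    intro h0
    have := congrArg Subtype.val h0
    simp only [ZeroMemClass.coe_zero, mul_eq_zero, pow_eq_zero_iff', inv_eq_zero] at this
    rcases this with h1 | ⟨h1, -⟩
    · exact hr0' h1
    · exact h.w_ne_zero h1
  have hu : IsUnit (⟨(r : Ω) * (w⁻¹) ^ n, hn1⟩ : R) := h.isUnit_of_inv_mem hn2 hu0
  refine ⟨hu.unit, ?_⟩
  apply Subtype.ext
  show w ^ n * ((r : Ω) * (w⁻¹) ^ n) = r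
  rw [inv_pow, mul_comm (r : Ω), ← mul_assoc, mul_inv_cancel₀ (pow_ne_zero n h.w_ne_zero), one_mul]

/-- Every element of `Ec` is `r / w ^ n` with `r ∈ R`. -/
theorem exists_pow_mul_mem_R {e : Ω} (he : e ∈ Ec) : ∃ n : ℕ, w ^ n * e ∈ R := by
  rcases h.R_total e he with h1 | h1
  · exact ⟨0, by simpa using h1⟩
  rcases eq_or_ne e 0 with rfl | he0
  · exact ⟨0, by simp [R.zero_mem]⟩
  obtain ⟨n, hn1, hn2⟩ := h.w_discrete e⁻¹ h1 (inv_ne_zero he0)
  refine ⟨n, ?_⟩
  have : w ^ n * e = (e⁻¹ * (w⁻¹) ^ n)⁻¹ := by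
    rw [mul_inv, inv_inv, inv_pow, inv_inv, mul_comm]
  rw [this]
  exact hn2

end DVR

end NCData

section Poly

/-- Integrality over the range of a ring homomorphism. -/
theorem isIntegral_iff_isIntegralElem {Λ : Type*} [CommRing Λ] (φ : Λ →+* Ω) (T : Subring Ω)
    (hT : φ.range = T) (y : Ω) : IsIntegral T y ↔ φ.IsIntegralElem y := by
  subst hT
  have hsurj : Function.Surjective φ.rangeRestrict := φ.rangeRestrict_surjective
  have hcomp : (algebraMap φ.range Ω).comp φ.rangeRestrict = φ := RingHom.ext fun _ => rfl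
  constructor
  · rintro ⟨p, hp, hpy⟩
    obtain ⟨q, hq, -, hqm⟩ := lifts_and_natDegree_eq_and_monic
      ((mem_lifts p).mpr (map_surjective φ.rangeRestrict hsurj p)) hp
    refine ⟨q, hqm, ?_⟩
    rw [← hq, eval₂_map, hcomp] at hpy
    exact hpy
  · rintro ⟨q, hqm, hq⟩
    refine ⟨q.map φ.rangeRestrict, hqm.map _, ?_⟩
    rw [eval₂_map, hcomp]
    exact hq

variable (R : Subring Ω) (x : Ω)

/-- Evaluation `R[X] → Ω`, `X ↦ x`. -/
noncomputable def evalHom : Polynomial R →+* Ω := (aeval x : Polynomial R →ₐ[R] Ω).toRingHom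

theorem evalHom_apply (p : Polynomial R) : evalHom R x p = aeval x p := rfl

theorem range_evalHom : (evalHom R x).range = polyRing R x := by
  unfold polyRing
  have h1 := Algebra.adjoin_eq_ring_closure (R := R) ({x} : Set Ω)
  have h2 := Algebra.adjoin_singleton_eq_range_aeval R x
  have h3 : Set.range (algebraMap R Ω) = (R : Set Ω) := Subtype.range_coe
  rw [h3] at h1
  rw [← h1, h2]
  rfl

theorem isIntegral_polyRing_iff (y : Ω) :
    IsIntegral (polyRing R x) y ↔ (evalHom R x).IsIntegralElem y :=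
  isIntegral_iff_isIntegralElem (evalHom R x) (polyRing R x) (range_evalHom R x) y

end Poly

namespace NCData

variable {Lc Ec : Subfield Ω} {R : Subring Ω} {w x : Ω} {S : Finset Ω}

section Clear

variable (h : NCData Lc Ec R w x S)
include h

theorem polyRing_le : polyRing R x ≤ polyRing Ec.toSubring x := by
  unfold polyRing
  apply Subring.closure_mono
  exact Set.union_subset_union_left _ h.R_le

theorem w_mem_polyRing : w ∈ polyRing R x :=
  Subring.subset_closure (Or.inl h.w_mem)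

theorem x_mem_polyRing : x ∈ polyRing R x :=
  Subring.subset_closure (Or.inr rfl)

theorem pow_mul_mem_of_le {a : Ω} {n m : ℕ} (hnm : n ≤ m) (ha : w ^ n * a ∈ polyRing R x) :
    w ^ m * a ∈ polyRing R x := by
  obtain ⟨k, rfl⟩ := Nat.exists_eq_add_of_le hnm
  rw [pow_add, mul_comm (w ^ n), mul_assoc]
  exact (polyRing R x).mul_mem (pow_mem h.w_mem_polyRing k) ha

/-- `Ec[x] = R[x][1/w]`. -/
theorem exists_pow_mul_mem_polyRing {a : Ω} (ha : a ∈ polyRing Ec.toSubring x) :
    ∃ n : ℕ, w ^ n * a ∈ polyRing R x := by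
  unfold polyRing at ha
  induction ha using Subring.closure_induction with
  | mem a ha =>
    rcases ha with ha | ha
    · obtain ⟨n, hn⟩ := h.exists_pow_mul_mem_R ha
      exact ⟨n, Subring.subset_closure (Or.inl hn)⟩
    · refine ⟨0, ?_⟩
      rw [pow_zero, one_mul, Set.mem_singleton_iff.mp ha]
      exact h.x_mem_polyRing
  | zero => exact ⟨0, by simp [(polyRing R x).zero_mem]⟩
  | one => exact ⟨0, by simp [(polyRing R x).one_mem]⟩
  | add a b _ _ ha hb =>
    obtain ⟨n, hn⟩ := ha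
    obtain ⟨m, hm⟩ := hb
    refine ⟨n + m, ?_⟩
    rw [mul_add]
    exact (polyRing R x).add_mem (h.pow_mul_mem_of_le (Nat.le_add_right n m) hn)
      (h.pow_mul_mem_of_le (Nat.le_add_left m n) hm)
  | neg a _ ha =>
    obtain ⟨n, hn⟩ := ha
    refine ⟨n, ?_⟩
    rw [mul_neg]
    exact (polyRing R x).neg_mem hn
  | mul a b _ _ ha hb =>
    obtain ⟨n, hn⟩ := ha
    obtain ⟨m, hm⟩ := hb
    refine ⟨n + m, ?_⟩
    have : w ^ (n + m) * (a * b) = (w ^ n * a) * (w ^ m * b) := by ring
    rw [this]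
    exact (polyRing R x).mul_mem hn hm

/-- **Clearing denominators**: integral over `Ec[x]` implies `w ^ N • _` integral over `R[x]`. -/
theorem exists_isIntegral_pow_mul {y : Ω} (hy : IsIntegral (polyRing Ec.toSubring x) y) :
    ∃ N : ℕ, IsIntegral (polyRing R x) (w ^ N * y) := by
  classical
  obtain ⟨p, hp, hpy⟩ := hy
  have hex : ∀ i : ℕ, ∃ n : ℕ, w ^ n * ((p.coeff i : polyRing Ec.toSubring x) : Ω) ∈
      polyRing R x := fun i => h.exists_pow_mul_mem_polyRing (p.coeff i).2
  choose n hn using hex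
  obtain ⟨N, hN⟩ : ∃ N : ℕ, ∀ i ∈ Finset.range (p.natDegree + 1), n i ≤ N :=
    ⟨(Finset.range (p.natDegree + 1)).sup n, fun i hi => Finset.le_sup (f := n) hi⟩
  have hwA : w ^ N ∈ polyRing Ec.toSubring x := h.polyRing_le (pow_mem h.w_mem_polyRing N)
  obtain ⟨s, hs⟩ : ∃ s : polyRing Ec.toSubring x, (s : Ω) = w ^ N := ⟨⟨w ^ N, hwA⟩, rfl⟩
  have hlift : p.scaleRoots s ∈ lifts (Subring.inclusion h.polyRing_le) := by
    rw [lifts_iff_coeff_lifts]
    intro i
    rw [coeff_scaleRoots]
    rcases lt_trichotomy i p.natDegree with hi | hi | hi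
    · -- `i < d`
      have h1 : n i ≤ N * (p.natDegree - i) := by
        have h2 : n i ≤ N := hN i (Finset.mem_range.mpr (by omega))
        have h3 : 1 ≤ p.natDegree - i := by omega
        calc n i ≤ N := h2
          _ = N * 1 := (mul_one N).symm
          _ ≤ N * (p.natDegree - i) := Nat.mul_le_mul_left N h3
      have h4 := h.pow_mul_mem_of_le h1 (hn i)
      refine ⟨⟨_, h4⟩, ?_⟩
      apply Subtype.ext
      rw [Subring.coe_inclusion, Subring.coe_mul, SubmonoidClass.coe_pow, hs, ← pow_mul]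
      exact mul_comm _ _
    · subst hi
      refine ⟨1, ?_⟩
      rw [Nat.sub_self, pow_zero, mul_one, coeff_natDegree, hp.leadingCoeff, map_one]
    · refine ⟨0, ?_⟩
      rw [coeff_eq_zero_of_natDegree_lt hi, zero_mul, map_zero]
  obtain ⟨q, hq, -, hqm⟩ := lifts_and_natDegree_eq_and_monic hlift
    ((monic_scaleRoots_iff s).mpr hp)
  refine ⟨N, q, hqm, ?_⟩
  have hcomp : (algebraMap (polyRing Ec.toSubring x) Ω).comp (Subring.inclusion h.polyRing_le) =
      algebraMap (polyRing R x) Ω := by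
    refine RingHom.ext fun a => ?_
    rw [RingHom.comp_apply, Algebra.algebraMap_ofSubsemiring_apply, Algebra.algebraMap_ofSubsemiring_apply,
      Subring.coe_inclusion]
  rw [← hcomp, ← eval₂_map, hq]
  have h5 := scaleRoots_eval₂_mul (algebraMap (polyRing Ec.toSubring x) Ω) y s (p := p)
  have hs' : algebraMap (polyRing Ec.toSubring x) Ω s = w ^ N := by
    rw [Algebra.algebraMap_ofSubsemiring_apply, hs]
  rw [hs'] at h5
  rw [h5, hpy, mul_zero]

end Clear

end NCData

/-- Integrality passes to a larger subring. -/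
theorem isIntegral_of_le {C₁ C₂ : Type*} [SetLike C₁ Ω] [SubringClass C₁ Ω] [SetLike C₂ Ω]
    [SubringClass C₂ Ω] (T : C₁) (A : C₂) (hTA : ∀ t ∈ T, t ∈ A) {y : Ω}
    (hy : IsIntegral T y) : IsIntegral A y := by
  obtain ⟨p, hp, hpy⟩ := hy
  let j : T →+* A := (SubringClass.subtype T).codRestrict A (fun t => hTA t t.2)
  refine ⟨p.map j, hp.map j, ?_⟩
  have hcomp : (algebraMap A Ω).comp j = algebraMap T Ω := by
    refine RingHom.ext fun a => ?_
    rw [RingHom.comp_apply, Algebra.algebraMap_ofSubsemiring_apply,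
      Algebra.algebraMap_ofSubsemiring_apply]
    rfl
  rw [eval₂_map, hcomp]
  exact hpy

namespace NCData

variable {Lc Ec : Subfield Ω} {R : Subring Ω} {w x : Ω} {S : Finset Ω}

section Prime

variable (h : NCData Lc Ec R w x S)
include h

/-- The inclusion `R → Lc`. -/
noncomputable def toLc : R →+* Lc := R.subtype.codRestrict Lc (fun r => h.E_le_L (h.R_le r.2))

theorem toLc_coe (r : R) : ((h.toLc r : Lc) : Ω) = r := rfl

theorem toLc_injective : Function.Injective h.toLc := by
  intro a b hab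
  apply Subtype.ext
  have := congrArg (Subtype.val : Lc → Ω) hab
  exact this

theorem aeval_map_toLc (π : Polynomial R) : aeval x (π.map h.toLc) = aeval x π := by
  rw [aeval_def, aeval_def, eval₂_map]
  congr 1

/-- `x` is transcendental over `R`. -/
theorem evalHom_injective : Function.Injective (evalHom R x) := by
  have hinj := transcendental_iff_injective.mp h.x_transcendental
  intro p q hpq
  have h1 : aeval x (p.map h.toLc) = aeval x (q.map h.toLc) := by
    rw [h.aeval_map_toLc, h.aeval_map_toLc]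
    exact hpq
  exact Polynomial.map_injective _ h.toLc_injective (hinj h1)

theorem aeval_mem_polyRing (π : Polynomial R) : aeval x π ∈ polyRing R x := by
  rw [← range_evalHom]
  exact ⟨π, rfl⟩

variable {π : Polynomial R} (hπ : Prime π) (hπw : ¬ Associated π (C h.w₀))
include hπ hπw

theorem isPrimitive_of_prime : π.IsPrimitive := by
  rw [isPrimitive_iff_isUnit_of_C_dvd]
  intro r hr
  by_contra hru
  obtain ⟨r', hr'⟩ := h.w₀_dvd_of_not_isUnit hru
  have h1 : C h.w₀ ∣ π := by
    refine dvd_trans ?_ hr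
    rw [hr', C_mul]
    exact dvd_mul_right _ _
  rcases (hπ.irreducible.dvd_iff).mp h1 with h2 | h2
  · rw [Polynomial.isUnit_iff] at h2
    obtain ⟨u, hu, huC⟩ := h2
    rw [C_inj] at huC
    exact h.not_isUnit_w₀ (huC ▸ hu)
  · exact hπw h2

theorem not_dvd_C_pow (N : ℕ) : ¬ π ∣ C h.w₀ ^ N := by
  intro hdvd
  have h1 : π ∣ C h.w₀ := hπ.dvd_of_dvd_pow hdvd
  haveI := h.isDiscreteValuationRing
  have hw : Prime (C h.w₀ : Polynomial R) := prime_C_iff.mpr h.irreducible_w₀.prime
  rcases (hw.irreducible.dvd_iff).mp h1 with h2 | h2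
  · exact hπ.not_isUnit h2
  · exact hπw h2.symm

theorem separable_map_toLc : (π.map h.toLc).Separable := by
  haveI := h.isDiscreteValuationRing
  haveI := h.charZero
  haveI : CharZero (FractionRing R) :=
    charZero_of_injective_algebraMap (IsFractionRing.injective R (FractionRing R))
  have h1 : Irreducible (π.map (algebraMap R (FractionRing R))) :=
    ((h.isPrimitive_of_prime hπ hπw).irreducible_iff_irreducible_map_fraction_map).mp
      hπ.irreducible
  have h2 : (π.map (algebraMap R (FractionRing R))).Separable := h1.separable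
  have h3 := h2.map (f := IsFractionRing.lift (K := FractionRing R) h.toLc_injective)
  rw [Polynomial.map_map] at h3
  have h4 : (IsFractionRing.lift (K := FractionRing R) h.toLc_injective).comp
      (algebraMap R (FractionRing R)) = h.toLc :=
    RingHom.ext fun a => IsFractionRing.lift_algebraMap h.toLc_injective a
  rw [h4] at h3
  exact h3

omit hπw in
theorem root_not_mem (hπS : ∀ c (hc : c ∈ S), ¬ Associated π (X - C ⟨c, h.S_mem c hc⟩))
    (c : Lc) (hc : (π.map h.toLc).IsRoot c) : (c : Ω) ∉ S := by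
  intro hcS
  have hcR : (c : Ω) ∈ R := h.S_mem _ hcS
  have h1 : h.toLc ⟨(c : Ω), hcR⟩ = c := Subtype.ext rfl
  have h2 : π.IsRoot ⟨(c : Ω), hcR⟩ := by
    rw [IsRoot.def]
    apply h.toLc_injective
    rw [map_zero, ← eval₂_hom, h1, ← eval_map]
    exact hc
  have h3 : X - C (⟨(c : Ω), hcR⟩ : R) ∣ π := dvd_iff_isRoot.mpr h2
  rcases (hπ.irreducible.dvd_iff).mp h3 with h4 | h4
  · exact not_isUnit_X_sub_C _ h4
  · exact hπS (c : Ω) hcS h4

end Prime

section Main

variable (h : NCData Lc Ec R w x S)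
include h

/-- **Step 1** (valuative criterion + uniformiser lemma): `b / π(x)` is integral over `Ec[x]`. -/
theorem isIntegral_mul_inv_polyRingE {π : Polynomial R} (hπ : Prime π)
    (hπw : ¬ Associated π (C h.w₀))
    (hπS : ∀ c (hc : c ∈ S), ¬ Associated π (X - C ⟨c, h.S_mem c hc⟩))
    {b : Ω} (hb : IsIntegral (polyRing R x) b) {k : ℕ}
    (hk : IsIntegral (polyRing R x) (b ^ k * (aeval x π)⁻¹)) :
    IsIntegral (polyRing Ec.toSubring x) (b * (aeval x π)⁻¹) := by
  by_contra hβ
  -- the integral closure of `Ec[x]` in `Ω`, as a subring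
  set Icl : Subring Ω := (integralClosure (polyRing Ec.toSubring x) Ω).toSubring with hIcl
  have hmem : ∀ y : Ω, y ∈ Icl ↔ IsIntegral (polyRing Ec.toSubring x) y := fun y => Iff.rfl
  haveI : IsIntegrallyClosedIn Icl Ω := by
    rw [Subring.isIntegrallyClosedIn_iff]
    intro y hy
    rw [hmem]
    have hy' : IsIntegral (integralClosure (polyRing Ec.toSubring x) Ω) y := hy
    exact isIntegral_trans (R := polyRing Ec.toSubring x)
      (A := integralClosure (polyRing Ec.toSubring x) Ω) y hy'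
  obtain ⟨V, hV, hβV⟩ := Subring.exists_le_valuationSubring_of_isIntegrallyClosedIn
    (x := b * (aeval x π)⁻¹) (R := Icl) ((hmem _).not.mpr hβ)
  -- `V` contains `R[x]`-integral elements and the constants
  have hTV : ∀ y : Ω, IsIntegral (polyRing R x) y → y ∈ V := fun y hy =>
    hV ((hmem y).mpr (isIntegral_of_le _ _ (fun t ht => h.polyRing_le ht) hy))
  have hEA : ∀ e ∈ Ec, e ∈ polyRing Ec.toSubring x := fun e he =>
    Subring.subset_closure (Or.inl he)
  have hLV : ∀ a ∈ Lc, a ∈ V := by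
    intro a ha
    have h1 : IsIntegral Ec a := (h.L_algebraic a ha).isIntegral
    exact hV ((hmem a).mpr (isIntegral_of_le Ec (polyRing Ec.toSubring x) hEA h1))
  have hbV : b ∈ V := hTV b hb
  have hcV : b ^ k * (aeval x π)⁻¹ ∈ V := hTV _ hk
  have hπV : aeval x π ∈ V := by
    apply hTV
    have := h.aeval_mem_polyRing π
    exact isIntegral_algebraMap (R := polyRing R x) (A := Ω) (x := ⟨_, this⟩)
  -- `π(x)` is a nonunit of `V`
  have hπinv : (aeval x π)⁻¹ ∉ V := fun hinv => hβV (V.mul_mem _ _ hbV hinv)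
  have hπ0 : aeval x π ≠ 0 := by
    intro h0
    rw [h0, inv_zero] at hπinv
    exact hπinv V.zero_mem
  have hb0 : b ≠ 0 := by
    rintro rfl
    rw [zero_mul] at hβV
    exact hβV V.zero_mem
  -- `b` is a nonunit of `V`
  have hbinv : b⁻¹ ∉ V := by
    intro hinv
    apply hπinv
    have h1 : (aeval x π)⁻¹ = (b ^ k * (aeval x π)⁻¹) * (b⁻¹) ^ k := by
      rw [inv_pow]
      field_simp
    rw [h1]
    exact V.mul_mem _ _ hcV (pow_mem hinv k)
  -- uniformiser lemma
  haveI := h.L_algClosed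
  have hU := mul_inv_mem_of_unramified V Lc hLV h.unramified (π.map h.toLc)
    (h.separable_map_toLc hπ hπw) (h.root_not_mem hπ hπS)
    (by rw [h.aeval_map_toLc]; exact hπV) (by rw [h.aeval_map_toLc]; exact hπinv)
    b hbV hbinv
  rw [h.aeval_map_toLc] at hU
  exact hβV hU

/-- **hNC, chart form.**  `π ∈ R[X]` prime, not associated to `w` nor to `X - c`, `c ∈ S`.
If `b` and `b ^ k / π(x)` are integral over `R[x]`, then so is `b / π(x)`. -/
theorem isIntegral_mul_inv {π : Polynomial R} (hπ : Prime π)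
    (hπw : ¬ Associated π (C h.w₀))
    (hπS : ∀ c (hc : c ∈ S), ¬ Associated π (X - C ⟨c, h.S_mem c hc⟩))
    {b : Ω} (hb : IsIntegral (polyRing R x) b) {k : ℕ}
    (hk : IsIntegral (polyRing R x) (b ^ k * (aeval x π)⁻¹)) :
    IsIntegral (polyRing R x) (b * (aeval x π)⁻¹) := by
  have h1 := h.isIntegral_mul_inv_polyRingE hπ hπw hπS hb hk
  obtain ⟨N, hN⟩ := h.exists_isIntegral_pow_mul h1
  -- the typed polynomial algebra
  haveI := h.isDiscreteValuationRing
  letI : Algebra (Polynomial R) Ω := (evalHom R x).toAlgebra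
  haveI : FaithfulSMul (Polynomial R) Ω :=
    (faithfulSMul_iff_algebraMap_injective _ _).mpr h.evalHom_injective
  letI := FractionRing.liftAlgebra (Polynomial R) Ω
  haveI := FractionRing.isScalarTower_liftAlgebra (Polynomial R) Ω
  have key : ∀ y : Ω, IsIntegral (polyRing R x) y ↔ IsIntegral (Polynomial R) y := fun y =>
    isIntegral_polyRing_iff R x y
  rw [key] at hb hN ⊢
  by_cases hπ0 : aeval x π = 0
  · rw [hπ0, inv_zero, mul_zero]
    exact isIntegral_zero
  refine H393.isIntegral_of_isIntegral_mul' (Λ := Polynomial R) (FractionRing (Polynomial R))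
    (w := π) (t := C h.w₀ ^ N) hπ (h.not_dvd_C_pow hπ hπw N) ?_ ?_
  · have h2 : algebraMap (Polynomial R) Ω π * (b * (aeval x π)⁻¹) = b := by
      show aeval x π * (b * (aeval x π)⁻¹) = b
      field_simp
    rw [h2]
    exact hb
  · have h2 : algebraMap (Polynomial R) Ω (C h.w₀ ^ N) * (b * (aeval x π)⁻¹) =
        w ^ N * (b * (aeval x π)⁻¹) := by
      show aeval x (C h.w₀ ^ N) * (b * (aeval x π)⁻¹) = _
      rw [map_pow, aeval_C]
      rfl
    rw [h2]
    exact hN

end Main

/-- **hNC, typed form.**  `B` any commutative `R[X]`-algebra realising the chart (an injective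
`ι : B → Ω` with `ι (algebraMap p) = p(x)` whose range is the set of `R[x]`-integral elements of
a subfield `Fc ∋ x`, `Fc ⊇ R`).  Then `π B` is a radical ideal for every prime `π` of `R[X]`
not associated to `w` nor to `X - c`, `c ∈ S`. -/
theorem isRadical_span (h : NCData Lc Ec R w x S) (Fc : Subfield Ω)
    {B : Type*} [CommRing B] [Algebra (Polynomial R) B] (ι : B →+* Ω)
    (hι : Function.Injective ι)
    (hcomp : ∀ p : Polynomial R, ι (algebraMap (Polynomial R) B p) = aeval x p)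
    (hrange : ∀ y : Ω, y ∈ Set.range ι ↔ y ∈ chart Fc R x)
    {π : Polynomial R} (hπ : Prime π) (hπw : ¬ Associated π (C h.w₀))
    (hπS : ∀ c (hc : c ∈ S), ¬ Associated π (X - C ⟨c, h.S_mem c hc⟩)) :
    (Ideal.span {algebraMap (Polynomial R) B π}).IsRadical := by
  intro b hb
  obtain ⟨k, hk⟩ := hb
  rw [Ideal.mem_span_singleton'] at hk ⊢
  obtain ⟨c, hc⟩ := hk
  have hπ0 : aeval x π ≠ 0 := by
    intro h0
    have : evalHom R x π = evalHom R x 0 := by rw [map_zero]; exact h0
    exact hπ.ne_zero (h.evalHom_injective this)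
  have hbch : ι b ∈ chart Fc R x := (hrange _).mp ⟨b, rfl⟩
  have hcch : ι c ∈ chart Fc R x := (hrange _).mp ⟨c, rfl⟩
  have h1 : ι b ^ k * (aeval x π)⁻¹ = ι c := by
    rw [← map_pow, ← hc, map_mul, hcomp]
    field_simp
  have hπF : aeval x π ∈ Fc := by
    have h2 := (hrange (aeval x π)).mp ⟨algebraMap (Polynomial R) B π, hcomp π⟩
    exact h2.1
  have h3 : ι b * (aeval x π)⁻¹ ∈ chart Fc R x := by
    refine ⟨Fc.mul_mem hbch.1 (Fc.inv_mem hπF), ?_⟩
    exact h.isIntegral_mul_inv hπ hπw hπS hbch.2 (k := k) (by rw [h1]; exact hcch.2)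
  obtain ⟨d, hd⟩ := (hrange _).mpr h3
  refine ⟨d, hι ?_⟩
  rw [map_mul, hcomp, hd]
  field_simp

end NCData

section GoodModel

variable {Lc Ec Fc : Subfield Ω} {R V : Subring Ω} {w x : Ω} {S : Finset Ω}

/-- The hNC data of a good model (chart `x`). -/
theorem ncData_of_goodModel (h : GoodModel Lc Ec Fc R V w x S) : NCData Lc Ec R w x S where
  charZero := h.charZero
  R_le := h.R_le
  R_total := h.R_total
  w_mem := h.w_mem
  w_ne_zero := h.w_ne_zero
  w_inv_not_mem := h.w_inv_not_mem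
  w_gen := h.w_gen
  w_discrete := h.w_discrete
  E_le_L := h.E_le_L
  L_algebraic := h.L_algebraic
  L_algClosed := h.L_algClosed
  x_transcendental := h.x_transcendental
  S_mem := h.S_mem
  unramified := h.unramified

/-- The hNC data of a good model in the chart at infinity (`x⁻¹`, branch values `{0} ∪ S⁻¹`). -/
theorem ncData_inv_of_goodModel [DecidableEq Ω] (h : GoodModel Lc Ec Fc R V w x S) :
    NCData Lc Ec R w x⁻¹ (invBranch S) where
  charZero := h.charZero
  R_le := h.R_le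
  R_total := h.R_total
  w_mem := h.w_mem
  w_ne_zero := h.w_ne_zero
  w_inv_not_mem := h.w_inv_not_mem
  w_gen := h.w_gen
  w_discrete := h.w_discrete
  E_le_L := h.E_le_L
  L_algebraic := h.L_algebraic
  L_algClosed := h.L_algClosed
  x_transcendental := by
    intro halg
    apply h.x_transcendental
    have := halg.inv
    rwa [inv_inv] at this
  S_mem := by
    intro s hs
    unfold invBranch at hs
    rcases Finset.mem_insert.mp hs with rfl | hs
    · exact R.zero_mem
    · obtain ⟨t, ht, rfl⟩ := Finset.mem_image.mp hs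
      rcases eq_or_ne t 0 with rfl | ht0
      · rw [inv_zero]; exact R.zero_mem
      · exact h.S_unit t ht ht0
  unramified := Unramified.inv h.unramified

/-- **hNC for the finite chart of a good model.** -/
theorem radical_fin (h : GoodModel Lc Ec Fc R V w x S) {π : Polynomial R} (hπ : Prime π)
    (hπw : ¬ Associated π (C (⟨w, h.w_mem⟩ : R)))
    (hπS : ∀ c (hc : c ∈ S), ¬ Associated π (X - C (⟨c, h.S_mem c hc⟩ : R)))
    {b : Ω} (hb : b ∈ chart Fc R x) {k : ℕ} (hk : b ^ k * (aeval x π)⁻¹ ∈ chart Fc R x) :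
    b * (aeval x π)⁻¹ ∈ chart Fc R x := by
  have hN := ncData_of_goodModel h
  have hπF : aeval x π ∈ Fc := by
    have h1 : polyRing R x ≤ Fc.toSubring := by
      unfold polyRing
      rw [Subring.closure_le]
      rintro y (hy | hy)
      · exact h.E_le_F (h.R_le hy)
      · rw [Set.mem_singleton_iff.mp hy]; exact h.x_mem
    exact h1 (hN.aeval_mem_polyRing π)
  exact ⟨Fc.mul_mem hb.1 (Fc.inv_mem hπF), hN.isIntegral_mul_inv hπ hπw hπS hb.2 hk.2⟩

/-- **hNC for the chart at infinity of a good model.** -/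
theorem radical_inf [DecidableEq Ω] (h : GoodModel Lc Ec Fc R V w x S) {π : Polynomial R}
    (hπ : Prime π) (hπw : ¬ Associated π (C (⟨w, h.w_mem⟩ : R)))
    (hπS : ∀ c (hc : c ∈ invBranch S),
      ¬ Associated π (X - C (⟨c, (ncData_inv_of_goodModel h).S_mem c hc⟩ : R)))
    {b : Ω} (hb : b ∈ chart Fc R x⁻¹) {k : ℕ}
    (hk : b ^ k * (aeval x⁻¹ π)⁻¹ ∈ chart Fc R x⁻¹) :
    b * (aeval x⁻¹ π)⁻¹ ∈ chart Fc R x⁻¹ := by
  have hN := ncData_inv_of_goodModel h
  have hπF : aeval x⁻¹ π ∈ Fc := by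
    have h1 : polyRing R x⁻¹ ≤ Fc.toSubring := by
      unfold polyRing
      rw [Subring.closure_le]
      rintro y (hy | hy)
      · exact h.E_le_F (h.R_le hy)
      · rw [Set.mem_singleton_iff.mp hy]; exact Fc.inv_mem h.x_mem
    exact h1 (hN.aeval_mem_polyRing π)
  exact ⟨Fc.mul_mem hb.1 (Fc.inv_mem hπF), hN.isIntegral_mul_inv hπ hπw hπS hb.2 hk.2⟩

end GoodModel

end Fermat.Agent.S18.H278
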